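/-
S25 (Jacobian), package ATLAS, glued-level core of the chart bijection (route 2.4, "P_i.map x_L ≈ L"):
a glued line bundle with a regular global section is determined, up to a unique isomorphism
matching the sections, by the zero ideals of the section on the two charts.

On the frozen `Core` + `A1/Basic` and helper2890's single-ring file `ATLAS/ZeroIdeal2890.lean`
(verbatim).  No tensor/dual of glued modules, no base change.
Author: helper2930.
-/
import Fermat.Agent.S25.A1.Basic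
import Fermat.Agent.S25.ATLAS.ZeroIdeal2890

set_option autoImplicit false
set_option linter.style.haveILetI false

universe u

namespace Fermat.Agent.S25.ATLAS.H2930

open Fermat.Agent.S25 Fermat.Agent.S25.ATLAS.H2890 Module

/-! ### Single ring -/

section SingleRing

variable {B : Type*} [CommRing B] {M : Type*} [AddCommGroup M] [Module B M]
  [Module.Invertible B M] {M' : Type*} [AddCommGroup M'] [Module B M'] [Module.Invertible B M']

/-- Two invertible modules with regular sections having the same zero ideal are isomorphic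
(both are the dual of that ideal). -/
noncomputable def equivOfZeroIdealEq {s : M} {s' : M'}
    (hs : Function.Injective fun b : B => b • s) (hs' : Function.Injective fun b : B => b • s')
    (h : zeroIdeal B s = zeroIdeal B s') : M ≃ₗ[B] M' :=
  (equivDualZeroIdeal hs).trans
    (((LinearEquiv.ofEq _ _ h).symm.dualMap).trans (equivDualZeroIdeal hs').symm)

/-- The isomorphism `equivOfZeroIdealEq` matches the sections. -/
theorem equivOfZeroIdealEq_self {s : M} {s' : M'}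
    (hs : Function.Injective fun b : B => b • s) (hs' : Function.Injective fun b : B => b • s')
    (h : zeroIdeal B s = zeroIdeal B s') : equivOfZeroIdealEq hs hs' h s = s' := by
  have key : (LinearEquiv.ofEq _ _ h).symm.dualMap (equivDualZeroIdeal hs s) =
      equivDualZeroIdeal hs' s' := by
    rw [equivDualZeroIdeal_self, equivDualZeroIdeal_self]
    ext a
    rfl
  simp only [equivOfZeroIdealEq, LinearEquiv.trans_apply]
  rw [key, LinearEquiv.symm_apply_apply]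

/-- An invertible module with a regular section `s` has no `𝔞(s)`-torsion. -/
theorem eq_zero_of_zeroIdeal_smul_eq_zero {s : M} (hs : Function.Injective fun b : B => b • s)
    (m : M) (hm : ∀ a ∈ zeroIdeal B s, a • m = 0) : m = 0 := by
  rw [← Module.forall_dual_apply_eq_zero_iff B m]
  intro ψ
  apply hs
  simp only [zero_smul]
  have hmem := mem_zeroIdeal_smul_top (B := B) s
  refine Submodule.smul_induction_on hmem ?_ ?_
  · intro a ha n _
    rw [smul_smul, mul_comm, ← smul_eq_mul, ← map_smul, hm a ha, map_zero, zero_smul]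
  · intro x y hx hy
    rw [smul_add, hx, hy, add_zero]

/-- Two semilinear maps out of an invertible module that agree on a section `s` are equal,
if the target has no `𝔞(s)`-torsion. -/
theorem semilinear_ext_of_section {B' : Type*} [CommRing B'] (ρ : B →+* B')
    {X : Type*} [AddCommGroup X] [Module B' X] (s : M)
    (hX : ∀ x : X, (∀ a ∈ zeroIdeal B s, ρ a • x = 0) → x = 0)
    (φ ψ : M →+ X) (hφ : ∀ (b : B) (m : M), φ (b • m) = ρ b • φ m)
    (hψ : ∀ (b : B) (m : M), ψ (b • m) = ρ b • ψ m) (h : φ s = ψ s) (m : M) : φ m = ψ m := by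
  rw [← sub_eq_zero]
  apply hX
  intro a ha
  have hmem : a • m ∈ Submodule.span B {s} := by
    rw [← zeroIdeal_smul_top]
    exact Submodule.smul_mem_smul ha Submodule.mem_top
  obtain ⟨b, hb⟩ := Submodule.mem_span_singleton.1 hmem
  rw [smul_sub, ← hφ, ← hψ, ← hb, hφ, hψ, h, sub_self]

end SingleRing

/-! ### Glued modules -/

section Glued

variable {R : Type u} [CommRing R] {𝔹 : TwoChart R}

/-- Finitely many elements of `N₂` killed by powers of `g` are killed by a common power. -/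
theorem exists_pow_smul_eq_zero_of_finset (N : GluedModule 𝔹) (T : Finset 𝔹.B₂) (n : N.N₂)
    (h : ∀ t ∈ T, ∃ m : ℕ, 𝔹.g ^ m • t • n = 0) : ∃ m : ℕ, ∀ t ∈ T, 𝔹.g ^ m • t • n = 0 := by
  classical
  induction T using Finset.induction_on with
  | empty => exact ⟨0, fun t ht => absurd ht (Finset.notMem_empty t)⟩
  | insert a T _ ih =>
    obtain ⟨m₁, hm₁⟩ := ih fun t ht => h t (Finset.mem_insert_of_mem ht)
    obtain ⟨m₂, hm₂⟩ := h a (Finset.mem_insert_self a T)
    refine ⟨m₁ + m₂, fun t ht => ?_⟩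
    rcases Finset.mem_insert.1 ht with rfl | ht
    · rw [pow_add, mul_smul, hm₂, smul_zero]
    · rw [add_comm, pow_add, mul_smul, hm₁ t ht, smul_zero]

/-- Torsion-freeness with respect to a finitely generated ideal of `B₂` passes from `N₂` to the
overlap module `N₁₂`. -/
theorem eq_zero_of_forall_r₂_smul_eq_zero (N : GluedModule 𝔹) (𝔞 : Ideal 𝔹.B₂) (hfg : 𝔞.FG)
    (htf : ∀ n : N.N₂, (∀ a ∈ 𝔞, a • n = 0) → n = 0)
    (y : N.N₁₂) (hy : ∀ a ∈ 𝔞, 𝔹.r₂ a • y = 0) : y = 0 := by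
  obtain ⟨n, m, rfl⟩ := N.surj₂ y
  obtain ⟨T, hT⟩ := hfg
  -- each generator kills `n` up to a power of `g`
  have h1 : ∀ t ∈ T, ∃ m' : ℕ, 𝔹.g ^ m' • t • n = 0 := by
    intro t ht
    apply N.ker₂
    have ht' : t ∈ 𝔞 := hT ▸ Submodule.subset_span ht
    have h := hy t ht'
    rw [smul_comm] at h
    have h2 := congrArg (fun z => 𝔹.r₂ 𝔹.g ^ m • z) h
    simp only [smul_zero] at h2
    rw [← mul_smul, ← mul_pow, 𝔹.gf, one_pow, one_smul] at h2
    rw [N.ι₂_smul]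
    exact h2
  obtain ⟨m', hm'⟩ := exists_pow_smul_eq_zero_of_finset N T n h1
  have h3 : 𝔹.g ^ m' • n = 0 := by
    apply htf
    intro a ha
    rw [← hT] at ha
    refine Submodule.span_induction (p := fun a _ => a • 𝔹.g ^ m' • n = 0) ?_ ?_ ?_ ?_ ha
    · intro t ht
      rw [smul_comm]
      exact hm' t ht
    · exact zero_smul _ _
    · intro x y _ _ hx hy
      rw [add_smul, hx, hy, add_zero]
    · intro c x _ hx
      rw [smul_eq_mul, mul_smul, hx, smul_zero]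
  have h4 : N.ι₂ n = 0 := by
    have h5 := congrArg N.ι₂ h3
    rw [N.ι₂_smul, map_zero, map_pow] at h5
    have h6 := congrArg (fun z => 𝔹.r₁ 𝔹.f ^ m' • z) h5
    simp only [smul_zero] at h6
    rw [← mul_smul, ← mul_pow, 𝔹.fg, one_pow, one_smul] at h6
    exact h6
  rw [h4, smul_zero]

/-- A chart-1 isomorphism localises to the overlap. -/
theorem exists_equiv₁₂ (N N' : GluedModule 𝔹) (e : N.N₁ ≃ₗ[𝔹.B₁] N'.N₁) :
    ∃ e₁₂ : N.N₁₂ ≃ₗ[𝔹.B₁₂] N'.N₁₂, ∀ n, e₁₂ (N.ι₁ n) = N'.ι₁ (e n) := by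
  letI := 𝔹.algebra₁
  letI := N.module₁
  letI := N'.module₁
  haveI := 𝔹.isLocalization₁
  haveI := N.isScalarTower₁
  haveI := N'.isScalarTower₁
  haveI := N.isLocalizedModule₁
  haveI := N'.isLocalizedModule₁
  let S := Submonoid.powers 𝔹.f
  let F : N.N₁₂ →ₗ[𝔹.B₁] N'.N₁₂ := IsLocalizedModule.map S N.ι₁ₗ N'.ι₁ₗ e.toLinearMap
  let G : N'.N₁₂ →ₗ[𝔹.B₁] N.N₁₂ := IsLocalizedModule.map S N'.ι₁ₗ N.ι₁ₗ e.symm.toLinearMap
  have hFG : F ∘ₗ G = LinearMap.id := by
    rw [← IsLocalizedModule.map_comp' S N'.ι₁ₗ N.ι₁ₗ N'.ι₁ₗ]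
    simp
  have hGF : G ∘ₗ F = LinearMap.id := by
    rw [← IsLocalizedModule.map_comp' S N.ι₁ₗ N'.ι₁ₗ N.ι₁ₗ]
    simp
  refine ⟨LinearEquiv.ofLinearMap (F.extendScalarsOfIsLocalization S 𝔹.B₁₂)
    (G.extendScalarsOfIsLocalization S 𝔹.B₁₂) ?_ ?_, ?_⟩
  · ext x
    exact LinearMap.congr_fun hFG x
  · ext x
    exact LinearMap.congr_fun hGF x
  · intro n
    exact IsLocalizedModule.map_apply S N.ι₁ₗ N'.ι₁ₗ e.toLinearMap n

/-- **Line bundles with sections are determined by their divisors.**  Two glued line bundles with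
regular global sections whose zero ideals agree on both charts are isomorphic, by an isomorphism
matching the sections. -/
theorem exists_iso_of_zeroIdeal_eq (M M' : GluedModule 𝔹) (hM : M.IsLineBundle)
    (hM' : M'.IsLineBundle) (s : M.N₁ × M.N₂) (hs : s ∈ M.H0) (s' : M'.N₁ × M'.N₂)
    (hs' : s' ∈ M'.H0)
    (reg₁ : Function.Injective fun b : 𝔹.B₁ => b • s.1)
    (reg₂ : Function.Injective fun b : 𝔹.B₂ => b • s.2)
    (reg₁' : Function.Injective fun b : 𝔹.B₁ => b • s'.1)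
    (reg₂' : Function.Injective fun b : 𝔹.B₂ => b • s'.2)
    (h₁ : zeroIdeal 𝔹.B₁ s.1 = zeroIdeal 𝔹.B₁ s'.1)
    (h₂ : zeroIdeal 𝔹.B₂ s.2 = zeroIdeal 𝔹.B₂ s'.2) :
    ∃ e : M.Iso M', e.e₁ s.1 = s'.1 ∧ e.e₂ s.2 = s'.2 := by
  haveI := hM.inv₁
  haveI := hM.inv₂
  haveI := hM'.inv₁
  haveI := hM'.inv₂
  let e₁ : M.N₁ ≃ₗ[𝔹.B₁] M'.N₁ := equivOfZeroIdealEq reg₁ reg₁' h₁
  let e₂ : M.N₂ ≃ₗ[𝔹.B₂] M'.N₂ := equivOfZeroIdealEq reg₂ reg₂' h₂
  have he₁ : e₁ s.1 = s'.1 := equivOfZeroIdealEq_self reg₁ reg₁' h₁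
  have he₂ : e₂ s.2 = s'.2 := equivOfZeroIdealEq_self reg₂ reg₂' h₂
  obtain ⟨e₁₂, he₁₂⟩ := exists_equiv₁₂ M M' e₁
  have hs0 : M.ι₁ s.1 = M.ι₂ s.2 := (M.mem_H0 s).1 hs
  have hs0' : M'.ι₁ s'.1 = M'.ι₂ s'.2 := (M'.mem_H0 s').1 hs'
  -- the overlap module of `M'` has no `𝔞₂`-torsion
  have hfg : (zeroIdeal 𝔹.B₂ s.2).FG := by
    haveI := invertible_zeroIdeal reg₂
    exact Module.Finite.iff_fg.1 inferInstance
  have htf : ∀ x : M'.N₁₂, (∀ a ∈ zeroIdeal 𝔹.B₂ s.2, 𝔹.r₂ a • x = 0) → x = 0 := by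
    intro x hx
    refine eq_zero_of_forall_r₂_smul_eq_zero M' (zeroIdeal 𝔹.B₂ s.2) hfg ?_ x hx
    intro n hn
    exact eq_zero_of_zeroIdeal_smul_eq_zero reg₂' n (fun a ha => hn a (h₂ ▸ ha))
  have comm₂ : ∀ n, e₁₂ (M.ι₂ n) = M'.ι₂ (e₂ n) := by
    let φ : M.N₂ →+ M'.N₁₂ :=
      { toFun := fun n => e₁₂ (M.ι₂ n)
        map_zero' := by simp
        map_add' := fun x y => by simp }
    let ψ : M.N₂ →+ M'.N₁₂ :=
      { toFun := fun n => M'.ι₂ (e₂ n)
        map_zero' := by simp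
        map_add' := fun x y => by simp }
    have hφ : ∀ (b : 𝔹.B₂) (n : M.N₂), φ (b • n) = (𝔹.r₂ : 𝔹.B₂ →+* 𝔹.B₁₂) b • φ n := by
      intro b n
      change e₁₂ (M.ι₂ (b • n)) = 𝔹.r₂ b • e₁₂ (M.ι₂ n)
      rw [M.ι₂_smul, map_smul]
    have hψ : ∀ (b : 𝔹.B₂) (n : M.N₂), ψ (b • n) = (𝔹.r₂ : 𝔹.B₂ →+* 𝔹.B₁₂) b • ψ n := by
      intro b n
      change M'.ι₂ (e₂ (b • n)) = 𝔹.r₂ b • M'.ι₂ (e₂ n)
      rw [map_smul, M'.ι₂_smul]
    have hφψ : φ s.2 = ψ s.2 := by
      change e₁₂ (M.ι₂ s.2) = M'.ι₂ (e₂ s.2)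
      rw [← hs0, he₁₂, he₁, he₂, hs0']
    exact semilinear_ext_of_section (𝔹.r₂ : 𝔹.B₂ →+* 𝔹.B₁₂) s.2 htf φ ψ hφ hψ hφψ
  exact ⟨⟨e₁, e₂, e₁₂, he₁₂, comm₂⟩, he₁, he₂⟩

end Glued

end Fermat.Agent.S25.ATLAS.H2930
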