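/-
S25 (Jacobian), package ATLAS, glued-level core of the chart bijection, part 2:
zero ideals of sections commute with base change (`BaseChangeData` of the frozen `Defs`), and the
relational base change criterion

  `isBC_of_zeroIdeal_map` :  `Q` over `S`, `M` over `R` line bundles with sections `σ`, `s`
  (`s` regular), `φ : S →ₐ[k] R` with `𝔞_i(s) = 𝔞_i(σ) · B_i`  ⟹  `IsBC (𝒞.chartHom φ) Q M`.

This is the existence half of the chart bijection (`P_i.map x_L ≈ L`) in the frozen vocabulary;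
`exists_section_of_isBC` is the tool for the uniqueness half.
Imports the frozen `Defs`, the BC stub, and `ATLAS/H2930/DivIso.lean`.
Author: helper2930.
-/
import Fermat.Agent.S25.BC
import Fermat.Agent.S25.ATLAS.H2930.DivIso

set_option autoImplicit false
set_option linter.style.haveILetI false
set_option linter.unusedSectionVars false

universe u

namespace Fermat.Agent.S25.ATLAS.H2930

open Fermat.Agent.S25 Fermat.Agent.S25.GluedModule Fermat.Agent.S25.ATLAS.H2890 Module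

/-! ### Single ring: regularity from the zero ideal -/

section SingleRing

variable {B : Type*} [CommRing B] {M : Type*} [AddCommGroup M] [Module B M]
  [Module.Invertible B M]

/-- A section of an invertible module whose zero ideal has no annihilator is regular. -/
theorem smul_injective_of_zeroIdeal_faithful (s : M)
    (h : ∀ b : B, (∀ a ∈ zeroIdeal B s, b * a = 0) → b = 0) :
    Function.Injective fun b : B => b • s := by
  intro b c hbc
  have hbc' : b • s = c • s := hbc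
  rw [← sub_eq_zero]
  apply h
  intro a ha
  obtain ⟨ψ, rfl⟩ := mem_zeroIdeal.1 ha
  rw [← smul_eq_mul, ← map_smul, sub_smul, hbc', sub_self, map_zero]

/-- A section of an invertible module whose zero ideal is an invertible module is regular. -/
theorem smul_injective_of_invertible_zeroIdeal (s : M)
    [Module.Invertible B (zeroIdeal B s)] : Function.Injective fun b : B => b • s := by
  apply smul_injective_of_zeroIdeal_faithful
  intro b hb
  have h1 : ∀ a : zeroIdeal B s, b • a = (0 : B) • a := by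
    intro a
    apply Subtype.ext
    simpa using hb a a.2
  exact FaithfulSMul.eq_of_smul_eq_smul h1

/-- The zero ideal of a regular section is an invertible ideal, hence so is any ideal equal
to it; transport of regularity along an equality of zero ideals. -/
theorem smul_injective_of_zeroIdeal_eq {M' : Type*} [AddCommGroup M'] [Module B M']
    [Module.Invertible B M'] {s : M} {s' : M'}
    (hs : Function.Injective fun b : B => b • s) (h : zeroIdeal B s' = zeroIdeal B s) :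
    Function.Injective fun b : B => b • s' := by
  haveI : Module.Invertible B (zeroIdeal B s') := by
    rw [h]
    exact invertible_zeroIdeal hs
  exact smul_injective_of_invertible_zeroIdeal s'

end SingleRing

/-! ### Sections and zero ideals along `BaseChangeData` -/

section BCData

variable {R R' : Type u} [CommRing R] [CommRing R'] {φ : R →+* R'} {𝔹 : TwoChart R}
  {𝔹' : TwoChart R'} {Ψ : TwoChart.Hom φ 𝔹 𝔹'} {N : GluedModule 𝔹} {N' : GluedModule 𝔹'}

/-- Global sections map to global sections under base change. -/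
theorem mem_H0_of_baseChangeData (D : BaseChangeData Ψ N N') (s : N.N₁ × N.N₂)
    (hs : s ∈ N.H0) : (D.j₁ s.1, D.j₂ s.2) ∈ N'.H0 := by
  rw [GluedModule.mem_H0] at hs ⊢
  change N'.ι₁ (D.j₁ s.1) = N'.ι₂ (D.j₂ s.2)
  rw [← D.comm₁, ← D.comm₂, hs]

/-- Zero ideals commute with base change, chart 1. -/
theorem zeroIdeal_j₁ (D : BaseChangeData Ψ N N') [Module.Invertible 𝔹.B₁ N.N₁] (s : N.N₁) :
    zeroIdeal 𝔹'.B₁ (D.j₁ s) = (zeroIdeal 𝔹.B₁ s).map Ψ.ψ₁ := by
  refine le_antisymm ?_ ?_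
  · intro b hb
    obtain ⟨χ, rfl⟩ := mem_zeroIdeal.1 hb
    obtain ⟨T, hT⟩ := exists_finset_sum_dual_apply_smul_eq 𝔹.B₁ N.N₁
    have key : χ (D.j₁ s) = ∑ i ∈ T, Ψ.ψ₁ (i.1 s) * χ (D.j₁ i.2) := by
      conv_lhs => rw [← hT s]
      rw [map_sum, map_sum]
      refine Finset.sum_congr rfl fun i _ => ?_
      rw [D.j₁_smul, map_smul, smul_eq_mul]
    rw [key]
    exact Ideal.sum_mem _ fun i _ =>
      Ideal.mul_mem_right _ _ (Ideal.mem_map_of_mem _ (apply_mem_zeroIdeal _ _))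
  · rw [Ideal.map_le_iff_le_comap]
    intro b hb
    obtain ⟨χ, rfl⟩ := mem_zeroIdeal.1 hb
    obtain ⟨χ', hχ', -⟩ := D.univ₁ 𝔹'.B₁ (Ψ.ψ₁.toAddMonoidHom.comp χ.toAddMonoidHom) (by
      intro b n
      change Ψ.ψ₁ (χ (b • n)) = Ψ.ψ₁ b • Ψ.ψ₁ (χ n)
      rw [map_smul, smul_eq_mul, map_mul, smul_eq_mul])
    exact Ideal.mem_comap.2 (mem_zeroIdeal.2 ⟨χ', hχ' s⟩)

/-- Zero ideals commute with base change, chart 2. -/
theorem zeroIdeal_j₂ (D : BaseChangeData Ψ N N') [Module.Invertible 𝔹.B₂ N.N₂] (s : N.N₂) :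
    zeroIdeal 𝔹'.B₂ (D.j₂ s) = (zeroIdeal 𝔹.B₂ s).map Ψ.ψ₂ := by
  refine le_antisymm ?_ ?_
  · intro b hb
    obtain ⟨χ, rfl⟩ := mem_zeroIdeal.1 hb
    obtain ⟨T, hT⟩ := exists_finset_sum_dual_apply_smul_eq 𝔹.B₂ N.N₂
    have key : χ (D.j₂ s) = ∑ i ∈ T, Ψ.ψ₂ (i.1 s) * χ (D.j₂ i.2) := by
      conv_lhs => rw [← hT s]
      rw [map_sum, map_sum]
      refine Finset.sum_congr rfl fun i _ => ?_
      rw [D.j₂_smul, map_smul, smul_eq_mul]
    rw [key]
    exact Ideal.sum_mem _ fun i _ =>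
      Ideal.mul_mem_right _ _ (Ideal.mem_map_of_mem _ (apply_mem_zeroIdeal _ _))
  · rw [Ideal.map_le_iff_le_comap]
    intro b hb
    obtain ⟨χ, rfl⟩ := mem_zeroIdeal.1 hb
    obtain ⟨χ', hχ', -⟩ := D.univ₂ 𝔹'.B₂ (Ψ.ψ₂.toAddMonoidHom.comp χ.toAddMonoidHom) (by
      intro b n
      change Ψ.ψ₂ (χ (b • n)) = Ψ.ψ₂ b • Ψ.ψ₂ (χ n)
      rw [map_smul, smul_eq_mul, map_mul, smul_eq_mul])
    exact Ideal.mem_comap.2 (mem_zeroIdeal.2 ⟨χ', hχ' s⟩)

/-- **Uniqueness tool.**  A base change of a line bundle with a section `σ` carries a section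
whose zero ideals are the extensions of those of `σ`. -/
theorem exists_section_of_isBC (Q : GluedModule 𝔹) (M : GluedModule 𝔹') (h : IsBC Ψ Q M)
    (hQ : Q.IsLineBundle) (σ : Q.N₁ × Q.N₂) (hσ : σ ∈ Q.H0) :
    ∃ s : M.N₁ × M.N₂, s ∈ M.H0 ∧
      zeroIdeal 𝔹'.B₁ s.1 = (zeroIdeal 𝔹.B₁ σ.1).map Ψ.ψ₁ ∧
      zeroIdeal 𝔹'.B₂ s.2 = (zeroIdeal 𝔹.B₂ σ.2).map Ψ.ψ₂ := by
  obtain ⟨D⟩ := h
  haveI := hQ.inv₁
  haveI := hQ.inv₂
  exact ⟨(D.j₁ σ.1, D.j₂ σ.2), mem_H0_of_baseChangeData D σ hσ, zeroIdeal_j₁ D σ.1,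
    zeroIdeal_j₂ D σ.2⟩

end BCData

/-! ### The base change criterion on the frozen family chart -/

section Chart

variable {k : Type u} [Field k] (𝒞 : CurveData k)

/-- **Existence half of the chart bijection.**  Let `Q` over `S` and `M` over `R` be line bundles
on the family chart with global sections `σ`, `s`, the section `s` regular on both charts.
If `φ : S →ₐ[k] R` carries the zero ideals of `σ` to those of `s`, then `M` is the base change of
`Q` along `φ`. -/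
theorem isBC_of_zeroIdeal_map {S R : Type u} [CommRing S] [Algebra k S] [CommRing R]
    [Algebra k R] (φ : S →ₐ[k] R) (Q : GluedModule (𝒞.chart S)) (M : GluedModule (𝒞.chart R))
    (hQ : Q.IsLineBundle) (hM : M.IsLineBundle)
    (σ : Q.N₁ × Q.N₂) (hσ : σ ∈ Q.H0) (s : M.N₁ × M.N₂) (hs : s ∈ M.H0)
    (reg₁ : Function.Injective fun b : (𝒞.chart R).B₁ => b • s.1)
    (reg₂ : Function.Injective fun b : (𝒞.chart R).B₂ => b • s.2)
    (h₁ : zeroIdeal (𝒞.chart R).B₁ s.1 = (zeroIdeal (𝒞.chart S).B₁ σ.1).map (𝒞.chartHom φ).ψ₁)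
    (h₂ : zeroIdeal (𝒞.chart R).B₂ s.2 = (zeroIdeal (𝒞.chart S).B₂ σ.2).map (𝒞.chartHom φ).ψ₂) :
    IsBC (𝒞.chartHom φ) Q M := by
  obtain ⟨Q', hQ'⟩ := exists_isBC 𝒞 φ Q
  have hQ'lb : Q'.IsLineBundle := isLineBundle_of_isBC 𝒞 φ Q Q' hQ hQ'
  obtain ⟨D⟩ := id hQ'
  haveI := hQ.inv₁
  haveI := hQ.inv₂
  haveI := hQ'lb.inv₁
  haveI := hQ'lb.inv₂
  haveI := hM.inv₁
  haveI := hM.inv₂
  have z₁ : zeroIdeal (𝒞.chart R).B₁ (D.j₁ σ.1) = zeroIdeal (𝒞.chart R).B₁ s.1 := by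
    rw [zeroIdeal_j₁ D σ.1, h₁]
  have z₂ : zeroIdeal (𝒞.chart R).B₂ (D.j₂ σ.2) = zeroIdeal (𝒞.chart R).B₂ s.2 := by
    rw [zeroIdeal_j₂ D σ.2, h₂]
  obtain ⟨e, -, -⟩ := exists_iso_of_zeroIdeal_eq Q' M hQ'lb hM (D.j₁ σ.1, D.j₂ σ.2)
    (mem_H0_of_baseChangeData D σ hσ) s hs
    (smul_injective_of_zeroIdeal_eq reg₁ z₁) (smul_injective_of_zeroIdeal_eq reg₂ z₂)
    reg₁ reg₂ z₁ z₂
  exact isBC_of_iso 𝒞 φ Q Q Q' M hQ' ⟨Iso.refl Q⟩ ⟨e⟩

end Chart

end Fermat.Agent.S25.ATLAS.H2930
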