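/-
S25 (Jacobian), package ATLAS, glued-level core of the chart bijection, part 3:
the chart-2 zero ideal of a section whose divisor avoids `V(g)` is determined by its chart-1 zero
ideal, hence

  `isBC_of_zeroIdeal₁_map` :  `IsBC (𝒞.chartHom φ) Q M` as soon as `φ` carries the CHART-1 zero
  ideal of `σ ∈ H⁰(Q)` to that of a regular `s ∈ H⁰(M)`, both divisors avoiding `V(g)`

(the chart-1 condition is exactly what the universal property of a Hilbert chart `S_b` provides).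
Also: condition C2 (`M₂ = B₂ s₂ + g M₂`, as in the frozen `ATLAS.Good.sec`) in zero-ideal form.
Imports `ATLAS/H2930/DivBC.lean` (frozen `Defs` + BC stub + helper2890's `ZeroIdeal2890`).
Author: helper2930.
-/
import Fermat.Agent.S25.ATLAS.H2930.DivBC

set_option autoImplicit false
set_option linter.style.haveILetI false
set_option linter.unusedSectionVars false

universe u

namespace Fermat.Agent.S25.ATLAS.H2930

open Fermat.Agent.S25 Fermat.Agent.S25.GluedModule Fermat.Agent.S25.ATLAS.H2890 Module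

/-! ### Single ring: `I • M = M` and condition C2 -/

section SingleRing

variable {B : Type*} [CommRing B] {M : Type*} [AddCommGroup M] [Module B M]
  [Module.Invertible B M]

/-- A linear form maps `I • M` into `I`. -/
theorem dual_apply_mem_of_mem_smul_top (I : Ideal B) (χ : Module.Dual B M) {m : M}
    (hm : m ∈ I • (⊤ : Submodule B M)) : χ m ∈ I := by
  refine Submodule.smul_induction_on hm ?_ ?_
  · intro a ha n _
    rw [map_smul, smul_eq_mul]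
    exact Ideal.mul_mem_right _ _ ha
  · intro x y hx hy
    rw [map_add]
    exact Ideal.add_mem _ hx hy

/-- For an invertible module, `I • M = M` only if `I = ⊤`. -/
theorem eq_top_of_smul_top_eq_top (I : Ideal B) (h : I • (⊤ : Submodule B M) = ⊤) : I = ⊤ := by
  obtain ⟨T, hT⟩ := exists_finset_sum_dual_apply_eq_one B M
  rw [Ideal.eq_top_iff_one, ← hT]
  refine Ideal.sum_mem _ fun i _ => dual_apply_mem_of_mem_smul_top I i.1 ?_
  rw [h]
  exact Submodule.mem_top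

/-- Condition C2 in zero-ideal form: `M = B s + g M` iff the zero scheme of `s` does not meet
`V(g)`. -/
theorem span_sup_smul_top_eq_top_iff (s : M) (g : B) :
    Submodule.span B {s} ⊔ Ideal.span {g} • (⊤ : Submodule B M) = ⊤ ↔
      zeroIdeal B s ⊔ Ideal.span {g} = ⊤ := by
  rw [← zeroIdeal_smul_top, ← Submodule.sup_smul]
  constructor
  · exact eq_top_of_smul_top_eq_top _
  · intro h
    rw [h, Submodule.top_smul]

end SingleRing

/-! ### Glued modules: the overlap -/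

section Glued

variable {R : Type u} [CommRing R] {𝔹 : TwoChart R}

/-- The overlap module of a glued module with invertible first chart is invertible. -/
theorem invertible₁₂_of_invertible₁ (N : GluedModule 𝔹) [Module.Invertible 𝔹.B₁ N.N₁] :
    Module.Invertible 𝔹.B₁₂ N.N₁₂ := by
  letI := 𝔹.algebra₁
  letI := N.module₁
  haveI := 𝔹.isLocalization₁
  haveI := N.isScalarTower₁
  haveI := N.isLocalizedModule₁
  exact Module.Invertible.of_isLocalization (Submonoid.powers 𝔹.f) N.ι₁ₗ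

/-- Zero ideals commute with restriction to the overlap, chart 1. -/
theorem zeroIdeal_ι₁ (N : GluedModule 𝔹) [Module.Invertible 𝔹.B₁ N.N₁] (s : N.N₁) :
    zeroIdeal 𝔹.B₁₂ (N.ι₁ s) = (zeroIdeal 𝔹.B₁ s).map 𝔹.r₁.toRingHom := by
  letI := 𝔹.algebra₁
  letI := N.module₁
  haveI := 𝔹.isLocalization₁
  haveI := N.isScalarTower₁
  haveI := N.isLocalizedModule₁
  exact zeroIdeal_of_isBaseChange
    (IsLocalizedModule.isBaseChange (Submonoid.powers 𝔹.f) 𝔹.B₁₂ N.ι₁ₗ) s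

/-- Zero ideals commute with restriction to the overlap, chart 2. -/
theorem zeroIdeal_ι₂ (N : GluedModule 𝔹) [Module.Invertible 𝔹.B₂ N.N₂] (s : N.N₂) :
    zeroIdeal 𝔹.B₁₂ (N.ι₂ s) = (zeroIdeal 𝔹.B₂ s).map 𝔹.r₂.toRingHom := by
  letI := 𝔹.algebra₂
  letI := N.module₂
  haveI := 𝔹.isLocalization₂
  haveI := N.isScalarTower₂
  haveI := N.isLocalizedModule₂
  exact zeroIdeal_of_isBaseChange
    (IsLocalizedModule.isBaseChange (Submonoid.powers 𝔹.g) 𝔹.B₁₂ N.ι₂ₗ) s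

/-- The two zero ideals of a global section of a line bundle agree on the overlap. -/
theorem map_zeroIdeal_eq_of_mem_H0 (N : GluedModule 𝔹) (hN : N.IsLineBundle)
    (s : N.N₁ × N.N₂) (hs : s ∈ N.H0) :
    (zeroIdeal 𝔹.B₁ s.1).map 𝔹.r₁.toRingHom = (zeroIdeal 𝔹.B₂ s.2).map 𝔹.r₂.toRingHom := by
  haveI := hN.inv₁
  haveI := hN.inv₂
  rw [← zeroIdeal_ι₁, ← zeroIdeal_ι₂, (N.mem_H0 s).1 hs]

/-- An ideal of `B₂` comaximal with `g` is saturated with respect to the overlap. -/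
theorem comap_map_r₂_eq_of_sup_eq_top (J : Ideal 𝔹.B₂) (h : J ⊔ Ideal.span {𝔹.g} = ⊤) :
    (J.map 𝔹.r₂.toRingHom).comap 𝔹.r₂.toRingHom = J := by
  refine le_antisymm ?_ Ideal.le_comap_map
  intro x hx
  letI := 𝔹.algebra₂
  haveI := 𝔹.isLocalization₂
  have hx' : 𝔹.r₂ x ∈ Ideal.map (algebraMap 𝔹.B₂ 𝔹.B₁₂) J := hx
  rw [IsLocalization.mem_map_algebraMap_iff (Submonoid.powers 𝔹.g)] at hx'
  obtain ⟨⟨a, ⟨_, n, rfl⟩⟩, ha⟩ := hx'
  have ha' : 𝔹.r₂ (x * 𝔹.g ^ n - a) = 0 := by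
    rw [map_sub, map_mul, sub_eq_zero]
    exact ha
  obtain ⟨m, hm⟩ := 𝔹.ker₂ _ ha'
  -- `g ^ (m + n) * x ∈ J`
  have h1 : 𝔹.g ^ (m + n) * x ∈ J := by
    have h2 : 𝔹.g ^ (m + n) * x = 𝔹.g ^ m * (a : 𝔹.B₂) := by
      rw [mul_sub, sub_eq_zero] at hm
      rw [← hm, pow_add]
      ring
    rw [h2]
    exact Ideal.mul_mem_left _ _ a.2
  have h3 : J ⊔ Ideal.span {𝔹.g ^ (m + n)} = ⊤ := by
    rw [← Ideal.span_singleton_pow]
    exact Ideal.sup_pow_eq_top h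
  obtain ⟨j, hj, c, hc, hjc⟩ := Submodule.mem_sup.1 (h3 ▸ Submodule.mem_top : (1 : 𝔹.B₂) ∈ _)
  obtain ⟨c', rfl⟩ := Ideal.mem_span_singleton'.1 hc
  have h4 : x = j * x + c' * (𝔹.g ^ (m + n) * x) := by
    calc x = (j + c' * 𝔹.g ^ (m + n)) * x := by rw [hjc, one_mul]
      _ = j * x + c' * (𝔹.g ^ (m + n) * x) := by ring
  rw [h4]
  exact Ideal.add_mem _ (Ideal.mul_mem_right _ _ hj) (Ideal.mul_mem_left _ _ h1)

/-- If the divisor of a global section of a line bundle avoids `V(g)`, its chart-2 zero ideal is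
the closure of its chart-1 zero ideal. -/
theorem zeroIdeal₂_eq_comap (N : GluedModule 𝔹) (hN : N.IsLineBundle)
    (s : N.N₁ × N.N₂) (hs : s ∈ N.H0) (hg : zeroIdeal 𝔹.B₂ s.2 ⊔ Ideal.span {𝔹.g} = ⊤) :
    zeroIdeal 𝔹.B₂ s.2 = ((zeroIdeal 𝔹.B₁ s.1).map 𝔹.r₁.toRingHom).comap 𝔹.r₂.toRingHom := by
  rw [map_zeroIdeal_eq_of_mem_H0 N hN s hs, comap_map_r₂_eq_of_sup_eq_top _ hg]

/-- Line bundles with sections whose divisors avoid `V(g)` are determined by the chart-1 zero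
ideal of the section. -/
theorem exists_iso_of_zeroIdeal₁_eq (M M' : GluedModule 𝔹) (hM : M.IsLineBundle)
    (hM' : M'.IsLineBundle) (s : M.N₁ × M.N₂) (hs : s ∈ M.H0) (s' : M'.N₁ × M'.N₂)
    (hs' : s' ∈ M'.H0)
    (reg₁' : Function.Injective fun b : 𝔹.B₁ => b • s'.1)
    (reg₂' : Function.Injective fun b : 𝔹.B₂ => b • s'.2)
    (hg : zeroIdeal 𝔹.B₂ s.2 ⊔ Ideal.span {𝔹.g} = ⊤)
    (hg' : zeroIdeal 𝔹.B₂ s'.2 ⊔ Ideal.span {𝔹.g} = ⊤)
    (h₁ : zeroIdeal 𝔹.B₁ s.1 = zeroIdeal 𝔹.B₁ s'.1) :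
    ∃ e : M.Iso M', e.e₁ s.1 = s'.1 ∧ e.e₂ s.2 = s'.2 := by
  haveI := hM.inv₁
  haveI := hM.inv₂
  haveI := hM'.inv₁
  haveI := hM'.inv₂
  have h₂ : zeroIdeal 𝔹.B₂ s.2 = zeroIdeal 𝔹.B₂ s'.2 := by
    rw [zeroIdeal₂_eq_comap M hM s hs hg, zeroIdeal₂_eq_comap M' hM' s' hs' hg', h₁]
  exact exists_iso_of_zeroIdeal_eq M M' hM hM' s hs s' hs'
    (smul_injective_of_zeroIdeal_eq reg₁' h₁) (smul_injective_of_zeroIdeal_eq reg₂' h₂)
    reg₁' reg₂' h₁ h₂

end Glued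

/-! ### The chart-1 base change criterion on the frozen family chart -/

section Chart

variable {k : Type u} [Field k] (𝒞 : CurveData k)

/-- **Existence half of the chart bijection, chart-1 form.**  `Q` over `S`, `M` over `R` line
bundles on the family chart with global sections `σ`, `s` whose divisors avoid `V(g)`, `s` regular.
If `φ : S →ₐ[k] R` carries the chart-1 zero ideal of `σ` to that of `s`, then `M` is the base
change of `Q` along `φ`. -/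
theorem isBC_of_zeroIdeal₁_map {S R : Type u} [CommRing S] [Algebra k S] [CommRing R]
    [Algebra k R] (φ : S →ₐ[k] R) (Q : GluedModule (𝒞.chart S)) (M : GluedModule (𝒞.chart R))
    (hQ : Q.IsLineBundle) (hM : M.IsLineBundle)
    (σ : Q.N₁ × Q.N₂) (hσ : σ ∈ Q.H0) (s : M.N₁ × M.N₂) (hs : s ∈ M.H0)
    (reg₁ : Function.Injective fun b : (𝒞.chart R).B₁ => b • s.1)
    (reg₂ : Function.Injective fun b : (𝒞.chart R).B₂ => b • s.2)
    (hσg : zeroIdeal (𝒞.chart S).B₂ σ.2 ⊔ Ideal.span {(𝒞.chart S).g} = ⊤)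
    (hsg : zeroIdeal (𝒞.chart R).B₂ s.2 ⊔ Ideal.span {(𝒞.chart R).g} = ⊤)
    (h₁ : zeroIdeal (𝒞.chart R).B₁ s.1 = (zeroIdeal (𝒞.chart S).B₁ σ.1).map (𝒞.chartHom φ).ψ₁) :
    IsBC (𝒞.chartHom φ) Q M := by
  obtain ⟨Q', hQ'⟩ := exists_isBC 𝒞 φ Q
  have hQ'lb : Q'.IsLineBundle := isLineBundle_of_isBC 𝒞 φ Q Q' hQ hQ'
  obtain ⟨D⟩ := id hQ'
  haveI := hQ.inv₁
  haveI := hQ.inv₂
  have z₁ : zeroIdeal (𝒞.chart R).B₁ (D.j₁ σ.1) = zeroIdeal (𝒞.chart R).B₁ s.1 := by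
    rw [zeroIdeal_j₁ D σ.1, h₁]
  have zg : zeroIdeal (𝒞.chart R).B₂ (D.j₂ σ.2) ⊔ Ideal.span {(𝒞.chart R).g} = ⊤ := by
    rw [zeroIdeal_j₂ D σ.2]
    have h := congrArg (Ideal.map (𝒞.chartHom φ).ψ₂) hσg
    rw [Ideal.map_sup, Ideal.map_span, Set.image_singleton, (𝒞.chartHom φ).map_g,
      Ideal.map_top] at h
    exact h
  obtain ⟨e, -, -⟩ := exists_iso_of_zeroIdeal₁_eq Q' M hQ'lb hM (D.j₁ σ.1, D.j₂ σ.2)
    (mem_H0_of_baseChangeData D σ hσ) s hs reg₁ reg₂ zg hsg z₁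
  exact isBC_of_iso 𝒞 φ Q Q Q' M hQ' ⟨Iso.refl Q⟩ ⟨e⟩

end Chart

end Fermat.Agent.S25.ATLAS.H2930
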